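import Fermat.Agent.RT.Core.Residual
import Fermat.Agent.RT.Assembly.Forms

/-!
# Modular forms congruent to the residual representation of a semistable curve
-/

set_option autoImplicit false

noncomputable section

open WeierstrassCurve Polynomial
open CongruenceSubgroup ModularFormClass

namespace Fermat.Agent.RT.Core

local notation "GQ" => AlgebraicClosure ℚ ≃ₐ[ℚ] AlgebraicClosure ℚ

variable {W : WeierstrassCurve ℤ} {p : ℕ} [Fact p.Prime] (hΔ : W.Δ ≠ 0)
  {k : Type} [Field k] [Algebra (ZMod p) k]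

/-- A representation attached to a form congruent outside a finite set has the characteristic
polynomials of the residual representation. -/
theorem charpoly_eq_of_attached {M : ℕ} (hM : M ≠ 0) {g : CuspForm (Gamma0 M) 2}
    {φ : integralClosure ℤ ℂ →+* AlgebraicClosure k} {ρ : ResidualGaloisRep (AlgebraicClosure k)}
    (hatt : ρ.IsAttachedTo g φ) (T : Finset ℕ)
    (hout : ∀ ℓ : ℕ, ℓ.Prime → ℓ ∉ T → ∀ a : integralClosure ℤ ℂ, (a : ℂ) = qCoeff g ℓ →
      φ a = algebraMap k _ (abar W k ℓ)) (σ : GQ) :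
    LinearMap.charpoly (ρ.ρ σ) =
      (LinearMap.charpoly ((rhoBar W p hΔ k).ρ σ)).map (algebraMap k (AlgebraicClosure k)) := by
  classical
  have hpk : CharP k p := charP_of_injective_algebraMap (algebraMap (ZMod p) k).injective p
  have : CharP (AlgebraicClosure k) p :=
    charP_of_injective_algebraMap (algebraMap k (AlgebraicClosure k)).injective p
  refine (Assembly.charpoly_eq_of_frobenius ρ ((rhoBar W p hΔ k).baseChange (AlgebraicClosure k))
    (T ∪ insert p (M.primeFactors ∪ W.Δ.natAbs.primeFactors))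
    (fun ℓ hℓ hℓT A hA τ hτ => ?_) σ).trans (LinearMap.charpoly_baseChange _ _)
  simp only [Finset.mem_union, Finset.mem_insert, not_or] at hℓT
  have hℓM : ¬ ℓ ∣ M := fun h => hℓT.2.2.1 (Nat.mem_primeFactors.mpr ⟨hℓ, h, hM⟩)
  have hgood : W.IsGoodPrimeFor ℓ := fun h => hℓT.2.2.2 (Nat.mem_primeFactors.mpr
    ⟨hℓ, Int.natCast_dvd.mp h, Int.natAbs_ne_zero.mpr hΔ⟩)
  have hℓ0 : (ℓ : AlgebraicClosure k) ≠ 0 := fun h => hℓT.2.1
    ((Nat.prime_dvd_prime_iff_eq (Fact.out : p.Prime) hℓ).mp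
      ((CharP.cast_eq_zero_iff _ p ℓ).mp h)).symm
  obtain ⟨a, ha, hc⟩ := hatt ℓ hℓ hℓM hℓ0 A hA τ hτ
  rw [hc, hout ℓ hℓ hℓT.1 a ha]
  show _ = LinearMap.charpoly (((rhoBar W p hΔ k).ρ τ).baseChange (AlgebraicClosure k))
  rw [LinearMap.charpoly_baseChange,
    charpoly_rhoBar_frobenius (p := p) (hΔ := hΔ) hℓ hgood hℓT.2.1 hA hτ]
  simp

/-- The level `M` representation of a congruent form, against the residual representation. -/
theorem charpoly_attached_eq
    (hD : ∀ (N p : ℕ) [NeZero N] [Fact p.Prime], Nonempty (GaloisReps.HeckeGaloisModel N p))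
    {M : ℕ} (hM : M ≠ 0) {g : CuspForm (Gamma0 M) 2} (hg : g.IsNormalizedEigenform)
    (φ : integralClosure ℤ ℂ →+* AlgebraicClosure k) (T : Finset ℕ)
    (hout : ∀ ℓ : ℕ, ℓ.Prime → ℓ ∉ T → ∀ a : integralClosure ℤ ℂ, (a : ℂ) = qCoeff g ℓ →
      φ a = algebraMap k _ (abar W k ℓ)) :
    ∃ ρ : ResidualGaloisRep (AlgebraicClosure k), ρ.IsAttachedTo g φ ∧
      ∀ σ : GQ, LinearMap.charpoly (ρ.ρ σ) =
        (LinearMap.charpoly ((rhoBar W p hΔ k).ρ σ)).map (algebraMap k (AlgebraicClosure k)) := by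
  have hpk : CharP k p := charP_of_injective_algebraMap (algebraMap (ZMod p) k).injective p
  have : CharP (AlgebraicClosure k) p :=
    charP_of_injective_algebraMap (algebraMap k (AlgebraicClosure k)).injective p
  obtain ⟨ρ, hatt, -⟩ := GaloisReps.exists_residual_eigenform hD hg (Fact.out : p.Prime) φ
  exact ⟨ρ, hatt, charpoly_eq_of_attached hΔ hM hatt T hout⟩

include hΔ in
/-- A congruence outside a finite set extends to all good primes away from the level and `p`. -/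
theorem congr_of_congr_outside
    (hD : ∀ (N p : ℕ) [NeZero N] [Fact p.Prime], Nonempty (GaloisReps.HeckeGaloisModel N p))
    {M : ℕ} {g : CuspForm (Gamma0 M) 2} (hg : g.IsNormalizedEigenform)
    (φ : integralClosure ℤ ℂ →+* AlgebraicClosure k) (T : Finset ℕ)
    (hout : ∀ ℓ : ℕ, ℓ.Prime → ℓ ∉ T → ∀ a : integralClosure ℤ ℂ, (a : ℂ) = qCoeff g ℓ →
      φ a = algebraMap k _ (abar W k ℓ))
    {ℓ : ℕ} (hℓ : ℓ.Prime) (hgood : W.IsGoodPrimeFor ℓ) (hℓM : ¬ ℓ ∣ M)
    (hℓp : ℓ ≠ p) {a : integralClosure ℤ ℂ} (ha : (a : ℂ) = qCoeff g ℓ) :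
    φ a = algebraMap k _ (abar W k ℓ) := by
  have hpk : CharP k p := charP_of_injective_algebraMap (algebraMap (ZMod p) k).injective p
  have : CharP (AlgebraicClosure k) p :=
    charP_of_injective_algebraMap (algebraMap k (AlgebraicClosure k)).injective p
  have hℓ0 : (ℓ : AlgebraicClosure k) ≠ 0 := fun h => hℓp
    ((Nat.prime_dvd_prime_iff_eq (Fact.out : p.Prime) hℓ).mp
      ((CharP.cast_eq_zero_iff _ p ℓ).mp h)).symm
  obtain ⟨ρ, hatt, hρ⟩ := charpoly_attached_eq (p := p) hΔ hD (M := M) (fun h =>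
    hℓM (by rw [h]; exact dvd_zero ℓ))
      hg φ T hout
  obtain ⟨A, hA⟩ := Arith.exists_liesOverPrime hℓ
  obtain ⟨σ, hσ⟩ := Arith.exists_isFrobeniusAt hA hℓ
  obtain ⟨a', ha', hc⟩ := hatt ℓ hℓ hℓM hℓ0 A hA σ hσ
  rw [hρ σ, charpoly_rhoBar_frobenius (p := p) (hΔ := hΔ) hℓ hgood hℓp hA hσ] at hc
  have h1 := congrArg (fun f => Polynomial.coeff f 1) hc
  rw [show a = a' from Subtype.ext (ha.trans ha'.symm)]
  simpa [coeff_X_pow] using h1.symm

include hΔ in
/-- A congruent form makes the curve residually modular of its level. -/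
theorem isResiduallyModularOfLevel_of_congruent
    (hD : ∀ (N p : ℕ) [NeZero N] [Fact p.Prime], Nonempty (GaloisReps.HeckeGaloisModel N p))
    {S : Finset ℕ} {M : ℕ} {g : CuspForm (Gamma0 M) 2}
    (h : IsCongruentForm S (abar W k) g) : W.IsResiduallyModularOfLevel p M := by
  obtain ⟨hg, φ, hφ⟩ := h
  have hpk : CharP k p := charP_of_injective_algebraMap (algebraMap (ZMod p) k).injective p
  have : CharP (AlgebraicClosure k) p :=
    charP_of_injective_algebraMap (algebraMap k (AlgebraicClosure k)).injective p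
  have hmax : (RingHom.ker φ).IsMaximal := by
    have hP : (RingHom.ker φ).IsPrime := RingHom.ker_isPrime φ
    refine Ideal.isMaximal_of_isIntegral_of_isMaximal_comap (R := ℤ) _ ?_
    have hle : Ideal.span {(p : ℤ)} ≤ (RingHom.ker φ).comap (algebraMap ℤ _) := by
      rw [Ideal.span_le, Set.singleton_subset_iff, SetLike.mem_coe, Ideal.mem_comap,
        RingHom.mem_ker, map_natCast, map_natCast]
      exact CharP.cast_eq_zero _ _
    have hmax' : (Ideal.span {(p : ℤ)}).IsMaximal :=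
      PrincipalIdealRing.isMaximal_of_irreducible
        (Nat.prime_iff_prime_int.mp (Fact.out : p.Prime)).irreducible
    rw [← hmax'.eq_of_le (Ideal.IsPrime.comap _).ne_top hle]
    exact hmax'
  refine ⟨g, RingHom.ker φ, hg, hmax, ?_, fun ℓ hℓ hgood hℓM hℓp => ?_⟩
  · rw [RingHom.mem_ker, map_natCast]
    exact CharP.cast_eq_zero _ _
  · have : NeZero M := ⟨fun h => hℓM (h ▸ dvd_zero ℓ)⟩
    obtain ⟨θ, hθ⟩ := GaloisReps.exists_eigenform_character hg
    refine ⟨θ (HeckeDuality.heckeOp M 2 ℓ hℓ), hθ ℓ hℓ, ?_⟩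
    rw [RingHom.mem_ker, map_sub, sub_eq_zero,
      congr_of_congr_outside hΔ hD hg φ S hφ hℓ hgood hℓM hℓp (hθ ℓ hℓ), map_intCast]
    exact map_intCast (algebraMap k _) _

/-- Residual modularity gives a congruent form. -/
theorem isCongruentLevel_of_residuallyModular {S : Finset ℕ} {N : ℕ}
    (hS : ∀ ℓ : ℕ, ℓ.Prime → (ℓ = p ∨ ℓ ∣ N ∨ (ℓ : ℤ) ∣ W.Δ) → ℓ ∈ S)
    (hmod : W.IsResiduallyModularOfLevel p N) : IsCongruentLevel S (abar W k) N := by
  classical
  obtain ⟨g, 𝔪, hg, h𝔪, hp𝔪, hcong⟩ := hmod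
  let : Field (integralClosure ℤ ℂ ⧸ 𝔪) := Ideal.Quotient.field 𝔪
  have hpF : CharP (integralClosure ℤ ℂ ⧸ 𝔪) p := by
    refine (CharP.charP_iff_prime_eq_zero Fact.out).mpr ?_
    rw [← map_natCast (Ideal.Quotient.mk 𝔪), Ideal.Quotient.eq_zero_iff_mem]
    exact hp𝔪
  let : Algebra (ZMod p) (integralClosure ℤ ℂ ⧸ 𝔪) := ZMod.algebra _ p
  have : Algebra.IsIntegral ℤ (integralClosure ℤ ℂ ⧸ 𝔪) := inferInstance
  have : Algebra.IsIntegral (ZMod p) (integralClosure ℤ ℂ ⧸ 𝔪) :=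
    ⟨fun x => (Algebra.IsIntegral.isIntegral (R := ℤ) x).tower_top⟩
  let j : (integralClosure ℤ ℂ ⧸ 𝔪) →ₐ[ZMod p] AlgebraicClosure k := IsAlgClosed.lift
  let φ : integralClosure ℤ ℂ →+* AlgebraicClosure k := j.toRingHom.comp (Ideal.Quotient.mk 𝔪)
  refine ⟨g, hg, φ, fun ℓ hℓ hℓS a ha => ?_⟩
  have hgood : W.IsGoodPrimeFor ℓ := fun h => hℓS (hS ℓ hℓ (Or.inr (Or.inr h)))
  obtain ⟨b, hb, hbm⟩ := hcong ℓ hℓ hgood (fun h => hℓS (hS ℓ hℓ (Or.inr (Or.inl h))))
    (fun h => hℓS (hS ℓ hℓ (Or.inl h)))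
  rw [show a = b from Subtype.ext (ha.trans hb.symm)]
  have e1 : φ b = φ ((W.apOfModel ℓ : ℤ) : integralClosure ℤ ℂ) := by
    simp only [φ, RingHom.comp_apply]
    rw [(Ideal.Quotient.mk_eq_mk_iff_sub_mem _ _).mpr hbm]
  rw [e1, map_intCast, abar, map_intCast]

end Fermat.Agent.RT.Core
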