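import Fermat.Agent.RT.Assembly.Residual
import Fermat.Agent.EC.Rep.TWHypothesis
import Fermat.Agent.CFT.TWPrimes.Residual

/-!
# The residual representation of a semistable curve over a finite field

`rhoBar W p hΔ k` is `W[p] ⊗ k`, `abar W k ℓ` the reduction of `a_ℓ(W)`. For `W` the Frey curve
these are `freyRho` and `freyAbar`.
-/

set_option autoImplicit false

noncomputable section

open WeierstrassCurve WeierstrassCurve.Affine WeierstrassCurve.Affine.Point Polynomial
open scoped TensorProduct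

namespace Fermat.Agent.RT.Core

local notation "Q̄" => AlgebraicClosure ℚ
local notation "GQ" => AlgebraicClosure ℚ ≃ₐ[ℚ] AlgebraicClosure ℚ

/-- Stable subspaces of a twofold base change come from the single one. -/
theorem stable_baseChange_baseChange {k₀ k K : Type} [Field k₀] [Field k] [Field K] [Algebra k₀ k]
    [Algebra k K] [Algebra k₀ K] [IsScalarTower k₀ k K] (ρ : ResidualGaloisRep k₀) (H : Set GQ)
    (h : ∀ U : Submodule K (ρ.baseChange K).V,
      (∀ σ ∈ H, ∀ x ∈ U, (ρ.baseChange K).ρ σ x ∈ U) → U = ⊥ ∨ U = ⊤)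
    (U : Submodule K ((ρ.baseChange k).baseChange K).V)
    (hU : ∀ σ ∈ H, ∀ x ∈ U, ((ρ.baseChange k).baseChange K).ρ σ x ∈ U) : U = ⊥ ∨ U = ⊤ := by
  let e : K ⊗[k] (k ⊗[k₀] ρ.V) ≃ₗ[K] K ⊗[k₀] ρ.V :=
    TensorProduct.AlgebraTensorModule.cancelBaseChange k₀ k K K ρ.V
  have he : ∀ σ : GQ, e.toLinearMap ∘ₗ ((ρ.ρ σ).baseChange k).baseChange K =
      (ρ.ρ σ).baseChange K ∘ₗ e.toLinearMap := fun σ => by
    ext v
    simp [e]
  rcases h (U.map e.toLinearMap) (fun σ hσ x hx => by
      obtain ⟨w, hw, rfl⟩ := hx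
      exact ⟨_, hU σ hσ w hw, LinearMap.congr_fun (he σ) w⟩) with h' | h'
  · exact Or.inl (Submodule.map_injective_of_injective e.injective
      (h'.trans (Submodule.map_bot _).symm))
  · exact Or.inr (Submodule.map_injective_of_injective e.injective
      (h'.trans (by rw [Submodule.map_top, LinearEquiv.range])))

variable (W : WeierstrassCurve ℤ) (p : ℕ) [Fact p.Prime] (hΔ : W.Δ ≠ 0)
  (k : Type) [Field k] [Algebra (ZMod p) k]

/-- The representation on `W[p]`, over `k`. -/
def rhoBar : ResidualGaloisRep k :=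
  (EC.Rep.residualRep W p hΔ).baseChange k

/-- The traces of Frobenius elements of the residual representation. -/
def abar (W : WeierstrassCurve ℤ) (k : Type) [Field k] (ℓ : ℕ) : k :=
  (W.apOfModel ℓ : k)

variable {W p hΔ k}

theorem charpoly_rhoBar (σ : GQ) : LinearMap.charpoly ((rhoBar W p hΔ k).ρ σ) =
    (LinearMap.charpoly ((EC.Rep.residualRep W p hΔ).ρ σ)).map (algebraMap (ZMod p) k) :=
  LinearMap.charpoly_baseChange _ k

/-- At a good `ℓ ≠ p` Frobenius has characteristic polynomial `X² - a_ℓ X + ℓ` on the residual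
representation. -/
theorem charpoly_rhoBar_frobenius {ℓ : ℕ} (hℓ : ℓ.Prime) (hgood : W.IsGoodPrimeFor ℓ)
    (hne : ℓ ≠ p) {A : ValuationSubring Q̄} (hA : A.LiesOverPrime ℓ) {σ : GQ}
    (hσ : A.IsFrobeniusAt σ ℓ) :
    LinearMap.charpoly ((rhoBar W p hΔ k).ρ σ) =
      X ^ 2 - C (abar W k ℓ) * X + C (ℓ : k) := by
  rw [charpoly_rhoBar, EC.Rep.charpoly_residualRep_frobenius _ hℓ hgood hne hA hσ]
  simp [abar]

/-- The determinant of `σ` is the exponent by which it acts on the `p`-th roots of unity. -/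
theorem det_rhoBar {σ : GQ} {a : ℕ} (ha : ∀ μ : Q̄, μ ^ p = 1 → σ μ = μ ^ a) :
    LinearMap.det ((rhoBar W p hΔ k).ρ σ) = (a : k) := by
  have hn := EC.FrobTrace.card_rootsOfUnity_Qbar p
  refine (LinearMap.det_baseChange (A := k) _).trans ?_
  rw [EC.Rep.det_residualRep _ hn, Arith.modularCyclotomicCharacter_eq_natCast hn ha, map_natCast]

/-- The residual representation has cyclotomic determinant. -/
theorem detIsCyclotomic_rhoBar :
    (GaloisRepAdic.ofResidualGaloisRep (rhoBar W p hΔ k)).DetIsCyclotomic p := by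
  have hpk : CharP k p := charP_of_injective_algebraMap (algebraMap (ZMod p) k).injective p
  refine ⟨by simp, fun n σ a ha => ?_⟩
  rcases Nat.eq_zero_or_pos n with rfl | hn0
  · simp
  · have e : LinearMap.det ((GaloisRepAdic.ofResidualGaloisRep (rhoBar W p hΔ k)).ρ σ) =
        (a : k) := det_rhoBar fun μ hμ => ha μ (by
          obtain ⟨d, rfl⟩ : ∃ d, n = 1 + d := ⟨n - 1, by omega⟩
          rw [pow_add, pow_one, pow_mul, hμ, one_pow])
    rw [e, sub_self]
    exact Ideal.zero_mem _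

/-- For odd `p`, irreducibility over `𝔽_p` gives absolute irreducibility. -/
theorem isAbsolutelyIrreducible_rhoBar (hp2 : p ≠ 2) (hirr : W.ModRepIsIrreducible p) :
    (rhoBar W p hΔ k).IsAbsolutelyIrreducible :=
  Assembly.isAbsolutelyIrreducible_baseChange _ fun K =>
    EC.Rep.baseChange_residualRep_isIrreducible _ hp2 hirr K

/-- For a semistable curve with irreducible `p`-torsion, `p` odd, no line over an extension field is
stable under a subgroup of index two. -/
theorem indexTwo_rhoBar (hW : W.IsSemistableModel) (hp2 : p ≠ 2) (hirr : W.ModRepIsIrreducible p)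
    (K : Type) [Field K] [Algebra k K] (G : Subgroup GQ) (hG : G.index = 2)
    (U : Submodule K ((rhoBar W p hΔ k).baseChange K).V)
    (hU : ∀ σ ∈ G, ∀ x ∈ U, ((rhoBar W p hΔ k).baseChange K).ρ σ x ∈ U) : U = ⊥ ∨ U = ⊤ := by
  let : Algebra (ZMod p) K := ((algebraMap k K).comp (algebraMap (ZMod p) k)).toAlgebra
  have : IsScalarTower (ZMod p) k K := IsScalarTower.of_algebraMap_eq fun _ => rfl
  exact stable_baseChange_baseChange _ G
    (EC.Rep.residualRep_indexTwo_irreducible hW hp2 hirr K G hG) U hU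

/-- A field with all roots of quadratics over `ZMod p` splits the characteristic polynomials. -/
theorem charpoly_rhoBar_splits
    (hk : ∀ f : (ZMod p)[X], f.natDegree = 2 → ∃ x : k, (f.map (algebraMap (ZMod p) k)).IsRoot x)
    (σ : GQ) : ∃ α β : k, LinearMap.charpoly ((rhoBar W p hΔ k).ρ σ) =
      (X - C α) * (X - C β) := by
  set f := LinearMap.charpoly ((EC.Rep.residualRep W p hΔ).ρ σ) with hf
  have hdeg : f.natDegree = 2 := by
    rw [hf, LinearMap.charpoly_natDegree, (EC.Rep.residualRep W p hΔ).finrank_eq]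
  obtain ⟨x, hx⟩ := hk f hdeg
  have hd : f = X ^ 2 - C (LinearMap.trace _ _ ((EC.Rep.residualRep W p hΔ).ρ σ)) * X +
      C (LinearMap.det ((EC.Rep.residualRep W p hΔ).ρ σ)) :=
    EC.FrobTrace.charpoly_of_finrank_eq_two (EC.Rep.residualRep W p hΔ).finrank_eq _
  refine ⟨x, algebraMap (ZMod p) k (LinearMap.trace _ _ ((EC.Rep.residualRep W p hΔ).ρ σ)) - x, ?_⟩
  rw [charpoly_rhoBar, ← hf, hd]
  rw [hd, IsRoot, eval_map] at hx
  simp only [eval₂_add, eval₂_sub, eval₂_mul, eval₂_pow, eval₂_X, eval₂_C] at hx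
  simp only [Polynomial.map_add, Polynomial.map_sub, Polynomial.map_mul, Polynomial.map_pow,
    Polynomial.map_X, Polynomial.map_C]
  rw [show algebraMap (ZMod p) k (LinearMap.det ((EC.Rep.residualRep W p hΔ).ρ σ)) =
    x * (algebraMap (ZMod p) k (LinearMap.trace _ _ ((EC.Rep.residualRep W p hΔ).ρ σ)) - x) by
      linear_combination hx, map_mul, map_sub]
  ring

/-- The hypothesis for Taylor–Wiles primes. -/
theorem twHyp_rhoBar (hW : W.IsSemistableModel) (hp2 : p ≠ 2) (hirr : W.ModRepIsIrreducible p)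
    (hk : ∀ f : (ZMod p)[X], f.natDegree = 2 → ∃ x : k, (f.map (algebraMap (ZMod p) k)).IsRoot x)
    (b : Module.Basis (Fin 2) k (rhoBar W p hΔ k).V) :
    CFT.TWPrimes.TWHyp (Deform.matRes (rhoBar W p hΔ k) b) := by
  have h2 : (2 : k) ≠ 0 := by
    rw [← map_ofNat (algebraMap (ZMod p) k) 2]
    exact (_root_.map_ne_zero _).mpr (EC.Rep.two_ne_zero_zmod hp2)
  exact CFT.TWPrimes.twHyp_matRes (rhoBar W p hΔ k) b h2 (isAbsolutelyIrreducible_rhoBar hp2 hirr)
    (charpoly_rhoBar_splits hk) (indexTwo_rhoBar hW hp2 hirr k)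

/-- The residual representation is unramified at good primes other than `p`. -/
theorem isUnramifiedAt_rhoBar_of_good {q : ℕ} (hq : q.Prime) (hgood : W.IsGoodPrimeFor q)
    (hqp : q ≠ p) : (rhoBar W p hΔ k).IsUnramifiedAt q := by
  intro A hA σ hσ
  show LinearMap.baseChange k _ = 1
  rw [EC.Rep.isUnramifiedAt_residualRep hΔ hq hgood hqp A hA σ hσ, LinearMap.baseChange_one]
  rfl

theorem charpoly_rhoBar_inertia (hW : W.IsSemistableModel) {q : ℕ} (hq : q.Prime) (hqp : q ≠ p)
    {A : ValuationSubring Q̄} (hA : A.LiesOverPrime q) {σ : GQ}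
    (hσ : σ ∈ A.inertiaSubgroupIn ℚ) :
    LinearMap.charpoly ((rhoBar W p hΔ k).ρ σ) = (X - C 1) ^ 2 := by
  have h := EC.Rep.isUnipotentOnInertiaAt_residualRep hΔ hq hqp
    (EC.Rep.semistable_not_dvd hW q hq) A hA σ hσ
  rw [charpoly_rhoBar]
  exact (congrArg (Polynomial.map _) h).trans (by simp)

/-- For a semistable model inertia away from `p` acts with trace `2`. -/
theorem trace_rhoBar_inertia (hW : W.IsSemistableModel) {q : ℕ} (hq : q.Prime) (hqp : q ≠ p)
    {A : ValuationSubring Q̄} (hA : A.LiesOverPrime q) {σ : GQ}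
    (hσ : σ ∈ A.inertiaSubgroupIn ℚ) :
    LinearMap.trace k _ ((rhoBar W p hΔ k).ρ σ) = 2 := by
  have h := charpoly_rhoBar_inertia (k := k) (hΔ := hΔ) hW hq hqp hA hσ
  rw [EC.FrobTrace.charpoly_of_finrank_eq_two (rhoBar W p hΔ k).finrank_eq] at h
  have h1 := congrArg (fun f => Polynomial.coeff f 1) h
  rw [show ((X : k[X]) - C 1) ^ 2 = X ^ 2 - C 2 * X + C 1 by
    rw [show (2 : k) = 1 + 1 by norm_num, map_add, map_one]; ring] at h1
  simpa [coeff_C, coeff_one] using h1

end Fermat.Agent.RT.Core
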